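import Fermat.Agent.S38.IA.Hecke.Spec3

/-!
# Row HARD, cell HECKE, layer 3: lemmas on the level structure  (helper3)

For a family `qq : ι → ℕ` of distinct primes (`ι` a finite type):
* `gRed_surjective` : `(ℤ/M)ˣ → ∏ (ℤ/qq s)ˣ` is onto (Chinese remainder theorem);
* `diamondU_eq_of_gChi` : the diamond operator of `K = KG p N₀ qq` depends only on the class in
  `Δ`;
* `diamondU_gLift_one`, `diamondU_gLift_mul`, `diamondU_gLift_pow` : the diamond action of
  `∏ (ℤ/qq s)ˣ` through `gLift` is multiplicative and kills the `p^{m_s}`-th powers.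
(Generic-index versions of `red_surjective`, `diamondU_eq_of_chi` of helper511,
`S59/TW/Aut/SkelLemmas.lean`.)
-/

set_option autoImplicit false

open Polynomial IsLocalRing CongruenceSubgroup
open scoped MatrixGroups

namespace Fermat.Agent.S38.IA.Hecke

open Fermat.Agent.S59.TW.H653

section CRT

variable (N₀ : ℕ) {ι : Type} [Fintype ι] (qq : ι → ℕ)

theorem gRed_apply (u : (ZMod (gLevel N₀ qq))ˣ) (s : ι) :
    gRed N₀ qq u s = ZMod.unitsMap (dvd_gLevel N₀ qq s) u := rfl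

theorem gLevel_ne_zero (hN₀ : N₀ ≠ 0) (hprime : ∀ s, (qq s).Prime) : gLevel N₀ qq ≠ 0 :=
  Nat.mul_ne_zero hN₀ (Finset.prod_ne_zero_iff.mpr fun s _ => (hprime s).ne_zero)

/-- `(ℤ/M)ˣ → ∏ (ℤ/qq s)ˣ` is onto. -/
theorem gRed_surjective (hN₀ : N₀ ≠ 0) (hinj : Function.Injective qq)
    (hprime : ∀ s, (qq s).Prime) : Function.Surjective (gRed N₀ qq) := by
  intro a
  have hcop : Pairwise (Function.onFun Nat.Coprime qq) := by
    intro i j hij
    exact (Nat.coprime_primes (hprime i) (hprime j)).mpr fun h => hij (hinj h)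
  have hM : NeZero (gLevel N₀ qq) := ⟨gLevel_ne_zero N₀ qq hN₀ hprime⟩
  have hPM : (∏ s, qq s) ∣ gLevel N₀ qq := Dvd.intro_left _ rfl
  set e := ZMod.prodEquivPi qq hcop with he
  set x : ZMod (∏ s, qq s) := e.symm (fun s => ((a s : (ZMod (qq s))ˣ) : ZMod (qq s))) with hx
  set y : ZMod (∏ s, qq s) := e.symm (fun s => ((a s)⁻¹ : (ZMod (qq s))ˣ)) with hy
  have hxy : x * y = 1 := by
    rw [hx, hy, ← map_mul]
    have : ((fun s => ((a s : (ZMod (qq s))ˣ) : ZMod (qq s))) *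
        fun s => (((a s)⁻¹ : (ZMod (qq s))ˣ) : ZMod (qq s))) = 1 := by
      funext s
      simp
    rw [this, map_one]
  obtain ⟨u, hu⟩ := ZMod.unitsMap_surjective hPM (Units.mkOfMulEqOne x y hxy)
  refine ⟨u, ?_⟩
  funext s
  apply Units.ext
  rw [gRed_apply]
  have h1 : ZMod.unitsMap (dvd_gLevel N₀ qq s) u =
      ZMod.unitsMap (Finset.dvd_prod_of_mem qq (Finset.mem_univ s)) (ZMod.unitsMap hPM u) := by
    rw [← MonoidHom.comp_apply, ZMod.unitsMap_comp]
  rw [h1, hu]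
  show ZMod.castHom (Finset.dvd_prod_of_mem qq (Finset.mem_univ s)) (ZMod (qq s)) x = _
  rw [← ZMod.prodEquivPi_apply qq hcop x s, ← he, hx, RingEquiv.apply_symm_apply]

end CRT

section Dia

variable (p N₀ : ℕ) {ι : Type} [Fintype ι] (qq : ι → ℕ) {A : Type} [AddCommGroup A]

theorem diamondU_of_gChi [NeZero (gLevel N₀ qq)] {u : (ZMod (gLevel N₀ qq))ˣ}
    (hu : gChi p N₀ qq u = 1) (x : Additive (KG p N₀ qq) →+ A) :
    diamondU (isMid_KG p N₀ qq) u x = x := by
  have h := diamondHom_GammaH (A := A) (M := gLevel N₀ qq) (H := (gChi p N₀ qq).ker)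
    (u := u) (MonoidHom.mem_ker.mpr hu)
  have h2 := congrArg (fun f : AddMonoid.End (Additive (GammaH (gLevel N₀ qq)
    (gChi p N₀ qq).ker) →+ A) => f x) h
  exact h2

/-- The diamond operator of `K` depends only on the class in `Δ`. -/
theorem diamondU_eq_of_gChi [NeZero (gLevel N₀ qq)] {u u' : (ZMod (gLevel N₀ qq))ˣ}
    (hu : gChi p N₀ qq u = gChi p N₀ qq u') (x : Additive (KG p N₀ qq) →+ A) :
    diamondU (isMid_KG p N₀ qq) u x = diamondU (isMid_KG p N₀ qq) u' x := by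
  have h1 : u = u' * (u'⁻¹ * u) := by group
  have h2 : gChi p N₀ qq (u'⁻¹ * u) = 1 := by
    rw [map_mul, map_inv, hu, inv_mul_cancel]
  rw [h1, diamondU_mul, diamondU_of_gChi p N₀ qq h2]

theorem gChi_eq_of_gRed {u u' : (ZMod (gLevel N₀ qq))ˣ} (h : gRed N₀ qq u = gRed N₀ qq u') :
    gChi p N₀ qq u = gChi p N₀ qq u' := by
  unfold gChi
  rw [MonoidHom.comp_apply, MonoidHom.comp_apply, h]

theorem gChi_apply (u : (ZMod (gLevel N₀ qq))ˣ) :
    gChi p N₀ qq u = QuotientGroup.mk' (gPowSub p qq) (gRed N₀ qq u) := rfl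

variable (hsurj : Function.Surjective (gRed N₀ qq))

include hsurj in
theorem gRed_gLift' (a : ∀ s : ι, (ZMod (qq s))ˣ) : gRed N₀ qq (gLift N₀ qq a) = a :=
  gRed_gLift N₀ qq (hsurj a)

include hsurj in
theorem diamondU_gLift_one [NeZero (gLevel N₀ qq)] (x : Additive (KG p N₀ qq) →+ A) :
    diamondU (isMid_KG p N₀ qq) (gLift N₀ qq 1) x = x := by
  apply diamondU_of_gChi
  rw [gChi_apply, gRed_gLift' N₀ qq hsurj, map_one]

include hsurj in
theorem diamondU_gLift_mul [NeZero (gLevel N₀ qq)] (a b : ∀ s : ι, (ZMod (qq s))ˣ)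
    (x : Additive (KG p N₀ qq) →+ A) :
    diamondU (isMid_KG p N₀ qq) (gLift N₀ qq (a * b)) x =
      diamondU (isMid_KG p N₀ qq) (gLift N₀ qq a)
        (diamondU (isMid_KG p N₀ qq) (gLift N₀ qq b) x) := by
  rw [← diamondU_mul]
  apply diamondU_eq_of_gChi
  apply gChi_eq_of_gRed
  rw [map_mul, gRed_gLift' N₀ qq hsurj, gRed_gLift' N₀ qq hsurj, gRed_gLift' N₀ qq hsurj]

include hsurj in
/-- The diamond operators of the elements of `gPowSub` are trivial. -/
theorem diamondU_gLift_of_mem [NeZero (gLevel N₀ qq)] {a : ∀ s : ι, (ZMod (qq s))ˣ}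
    (ha : a ∈ gPowSub p qq) (x : Additive (KG p N₀ qq) →+ A) :
    diamondU (isMid_KG p N₀ qq) (gLift N₀ qq a) x = x := by
  apply diamondU_of_gChi
  rw [gChi_apply, gRed_gLift' N₀ qq hsurj]
  exact (QuotientGroup.eq_one_iff a).mpr ha

theorem pow_mem_gPowSub (a : ∀ s : ι, (ZMod (qq s))ˣ) :
    (fun s => a s ^ p ^ padicValNat p (qq s - 1)) ∈ gPowSub p qq := by
  unfold gPowSub
  rw [Subgroup.mem_pi]
  intro s _
  exact ⟨a s, rfl⟩

/-- The diamond operators commute. -/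
theorem diamondU_comm' [NeZero (gLevel N₀ qq)] (u v : (ZMod (gLevel N₀ qq))ˣ)
    (x : Additive (KG p N₀ qq) →+ A) :
    diamondU (isMid_KG p N₀ qq) u (diamondU (isMid_KG p N₀ qq) v x) =
      diamondU (isMid_KG p N₀ qq) v (diamondU (isMid_KG p N₀ qq) u x) := by
  rw [← diamondU_mul, ← diamondU_mul, mul_comm]

end Dia

end Fermat.Agent.S38.IA.Hecke
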