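import Fermat.Agent.S38.IA.Hecke.Spec3

/-!
# Row HARD, cell HECKE, layer 4: sub-leaves of IA-ST  (sub-architect helper3)

* `IAMinZeroStatement` (asked by helper59, squad S55/S59: "TW control at level `L / q`"):
  under (MIN), for every pivot `q` the localisation of `X_{K'}(𝒪)`,
  `K' = Γ₀(L / q) ∩ Γ_H(Q)`, at the maximal ideal `(𝔪_𝒪, T_ℓ - c_ℓ, U_{q_j} - α_j)` of the
  package `P_Q` is ZERO.
  (`MFree.free` at `κ = gKappa p (L / q) qv`: the part is free over `𝒪[Δ_Q]` with coinvariants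
  the part of `X_{Γ₀((L/q) ∏ qv)}(𝒪)`; TW-CTRL: this is the part of `X_{Γ₀(L/q)}(𝒪)`; (MIN) and the
  Eichler–Shimura dictionary: that part is zero [CTRL-MIN helper719, DICT-MIN helper841].)
  CONSUMER: IA-ST (both traces `X_{Γ₀(L) ∩ Γ_H(Q)} → X_{K'}` vanish on the localised part, hence
  `U_q² = ⟨q⟩` there).
Only sorry-free definitions in this file.
-/

set_option autoImplicit false

open Polynomial IsLocalRing CongruenceSubgroup
open scoped MatrixGroups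

namespace Fermat.Agent.S38.IA.Hecke

open Fermat.Agent.S59.Arch Fermat.Agent.S59.TW.H959 Fermat.Agent.S59.TW Fermat.Agent.S59.H765
open Fermat.Agent.S59.TW.H653 Fermat.Agent.S59.TW.Aut
open CuspForm

/-- **IA-MINZERO.**  Under (MIN) the localisation at level `Γ₀(L / q) ∩ Γ_H(Q)` is zero, for
every pivot `q`. -/
def IAMinZeroStatement : Prop :=
  ∀ (p : ℕ) [Fact p.Prime] (_hp5 : 5 ≤ p)
    (𝒪 : Type) [CommRing 𝒪] [IsDomain 𝒪] [IsDiscreteValuationRing 𝒪]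
    [IsAdicComplete (maximalIdeal 𝒪) 𝒪] [Finite (ResidueField 𝒪)] [CharZero 𝒪]
    (ρbar : ResidualGaloisRep (ResidueField 𝒪)) (Smin : Finset ℕ)
    (_h : ResidualHyp p 𝒪 ρbar Smin)
    (_hflat : (GaloisRepAdic.ofResidualGaloisRep ρbar).IsFlatAt p)
    (Piv : Finset ℕ) (_hPiv : IsPivotSet p ρbar Smin Piv)
    (_hmin : ∀ q ∈ Piv, ∀ S : Finset ℕ,
      ¬ ResModular 𝒪 ρbar (ribetLevel p Smin (Piv.erase q)) S)
    (n r : ℕ) (qv : Fin r → ℕ) (_hq : IsTWSet p ρbar (Smin ∪ Piv) n qv)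
    [NeZero (wilesLevel p .flat Smin (Smin ∪ Piv ∪ Finset.univ.image qv))]
    (PQ : HeckePkg p 𝒪 ρbar .flat Smin (Smin ∪ Piv ∪ Finset.univ.image qv))
    (α : Fin r → 𝒪) (_hα : IsFrobLift ρbar qv α)
    (q : ℕ) (_hqP : q ∈ Piv)
    (V' : Submodule 𝒪 (Additive (KG p (ribetLevel p Smin (Piv.erase q)) qv) →+ 𝒪)),
    IsLocPart (isMid_KG p (ribetLevel p Smin (Piv.erase q)) qv) (TsetOf PQ) (UsetOf qv α) V' →
      V' = ⊥

end Fermat.Agent.S38.IA.Hecke
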