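import Fermat.Agent.S38.IA.Hecke.GlueB2
import Fermat.Agent.S59.TW.AsmLemmas

/-!
# Row HARD, cell HECKE, layer 3, glue B: `iaBetti_of_leaves`  (helper3)

`iaBetti_of_leaves : IdemStatement → IANontrivStatement → IAModStatement → IAFreeStatement →
  IACtrlStatement → IARankStatement → IACmpStatement → IANuStatement → IAStStatement →
  IABettiStatement`.
-/

set_option autoImplicit false

open Polynomial IsLocalRing CongruenceSubgroup
open scoped MatrixGroups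

namespace Fermat.Agent.S38.IA.Hecke

open Fermat.Agent.S59.Arch Fermat.Agent.S59.TW.H959 Fermat.Agent.S59.TW Fermat.Agent.S59.H765
open Fermat.Agent.S59.TW.H653 Fermat.Agent.S59.TW.Aut
open CuspForm

/-! ## Exponents -/

section Exp

/-- In a finite group generated by `g`, every element is a power of `g` with a natural
exponent. -/
theorem exists_pow_eq_of_zpowers {G : Type} [Group G] [Finite G] {g : G}
    (hg : ∀ x : G, x ∈ Subgroup.zpowers g) (x : G) : ∃ s : ℕ, x = g ^ s := by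
  have h1 : x ∈ Submonoid.powers g := mem_powers_iff_mem_zpowers.mpr (hg x)
  obtain ⟨s, hs⟩ := h1
  exact ⟨s, hs.symm⟩

/-- `a · g^e = g^{e'} · c^m` with `e' < m`. -/
theorem exists_translate {G : Type} [CommGroup G] [Finite G] {g : G}
    (hg : ∀ x : G, x ∈ Subgroup.zpowers g) {m : ℕ} (hm : 0 < m) (a : G) (e : Fin m) :
    ∃ (e' : Fin m) (c : G), a * g ^ (e : ℕ) = g ^ (e' : ℕ) * c ^ m := by
  obtain ⟨s, rfl⟩ := exists_pow_eq_of_zpowers hg a
  refine ⟨⟨(s + e) % m, Nat.mod_lt _ hm⟩, g ^ ((s + e) / m), ?_⟩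
  rw [← pow_add, ← pow_mul, ← pow_add]
  congr 1
  rw [mul_comm]
  exact (Nat.mod_add_div (s + e) m).symm

end Exp

/-! ## The rank -/

section Rank

variable {p : ℕ} [hpF : Fact p.Prime]
  {𝒪 : Type} [CommRing 𝒪] [IsDomain 𝒪] [IsDiscreteValuationRing 𝒪]
  [IsAdicComplete (maximalIdeal 𝒪) 𝒪]
  {ρbar : ResidualGaloisRep (ResidueField 𝒪)} {Smin Piv : Finset ℕ}
  {k r : ℕ} {pv : Fin k → ℕ} {qv : Fin r → ℕ}
  [NeZero (wilesLevel p .flat Smin (Smin ∪ Piv ∪ Finset.univ.image qv))]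
  {PQ : HeckePkg p 𝒪 ρbar .flat Smin (Smin ∪ Piv ∪ Finset.univ.image qv)}
  {α : Fin r → 𝒪} {V : Submodule 𝒪 (XIA p Smin pv qv 𝒪)}
  [NeZero (MIA p Smin pv qv)]
  (hV : IsIAPart PQ α V)
  (hsurj : Function.Surjective (gRed (wilesLevel p .flat Smin Smin) (Sum.elim pv qv)))

/-- The diamond action on `V`, `𝒪`-linearly. -/
noncomputable def diaLin :
    (∀ i : Fin k, (ZMod (pv i))ˣ) × (∀ j : Fin r, (ZMod (qv j))ˣ) →* Module.End 𝒪 V where
  toFun d :=
    { toFun := fun v => ⟨diaIA p Smin pv qv 𝒪 d.1 d.2 v, diaIA_mem hV d.1 d.2 v.2⟩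
      map_add' := fun x y => Subtype.ext (diaIA_add p Smin pv qv 𝒪 d.1 d.2 _ _)
      map_smul' := fun c x => Subtype.ext (diaIA_smul p Smin pv qv 𝒪 d.1 d.2 c _) }
  map_one' := by
    refine LinearMap.ext fun v => Subtype.ext ?_
    exact diaIA_one p Smin pv qv 𝒪 hsurj _
  map_mul' d d' := by
    refine LinearMap.ext fun v => Subtype.ext ?_
    exact diaIA_mul p Smin pv qv 𝒪 hsurj _ _ _ _ _

theorem coe_diaLin (d : (∀ i : Fin k, (ZMod (pv i))ˣ) × (∀ j : Fin r, (ZMod (qv j))ˣ)) (v : V) :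
    ((diaLin hV hsurj d v : V) : XIA p Smin pv qv 𝒪) = diaIA p Smin pv qv 𝒪 d.1 d.2 v := rfl

include hV hsurj in
/-- **The rank of `V` over `𝒪[Δ_Piv × Δ_Q]` is the rank of `V₀`.** -/
theorem rank_eq_of_ctrl (hRank : IARankStatement) (hpvP : ∀ i, (pv i).Prime)
    (hqvP : ∀ j, (qv j).Prime) {d' : ℕ} (hfree : IAFreeAt V d')
    {V₀ : Submodule 𝒪 (Additive (Gamma0 (ribetLevel p Smin Piv)) →+ 𝒪)}
    (hctrl : IACtrlAt V₀ V) {d : ℕ} (B₀ : Module.Basis (Fin d) 𝒪 V₀) : d' = d := by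
  haveI : ∀ i, NeZero (pv i) := fun i => ⟨(hpvP i).ne_zero⟩
  haveI : ∀ j, NeZero (qv j) := fun j => ⟨(hqvP j).ne_zero⟩
  choose g₁ hg₁ hgen₁ using fun i => exists_primitive_root_units (hpvP i)
  choose g₂ hg₂ hgen₂ using fun j => exists_primitive_root_units (hqvP j)
  have hm₁ : ∀ i, 0 < p ^ padicValNat p (pv i - 1) := fun i => pow_pos hpF.out.pos _
  have hm₂ : ∀ j, 0 < p ^ padicValNat p (qv j - 1) := fun j => pow_pos hpF.out.pos _
  obtain ⟨b, hb⟩ := hfree g₁ g₂ hg₁ hg₂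
  obtain ⟨π, hπs, hπk⟩ := hctrl
  refine hRank 𝒪 V V₀ ((∀ i : Fin k, (ZMod (pv i))ˣ) × (∀ j : Fin r, (ZMod (qv j))ˣ))
    (diaLin hV hsurj)
    ((∀ i : Fin k, Fin (p ^ padicValNat p (pv i - 1))) ×
      (∀ j : Fin r, Fin (p ^ padicValNat p (qv j - 1))))
    (fun e => (fun i => g₁ i ^ (e.1 i : ℕ), fun j => g₂ j ^ (e.2 j : ℕ)))
    ?_ ?_ d' b ?_ π hπs ?_ d ⟨B₀⟩
  · -- the exponents are permuted
    intro a e
    choose e₁ c₁ h₁ using fun i => exists_translate (hgen₁ i) (hm₁ i) (a.1 i) (e.1 i)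
    choose e₂ c₂ h₂ using fun j => exists_translate (hgen₂ j) (hm₂ j) (a.2 j) (e.2 j)
    refine ⟨(e₁, e₂), ?_⟩
    have h3 : a * ((fun i => g₁ i ^ (e.1 i : ℕ)), (fun j => g₂ j ^ (e.2 j : ℕ))) =
        ((fun i => g₁ i ^ (e₁ i : ℕ)), (fun j => g₂ j ^ (e₂ j : ℕ))) *
          ((fun i => c₁ i ^ p ^ padicValNat p (pv i - 1)),
            (fun j => c₂ j ^ p ^ padicValNat p (qv j - 1))) :=
      Prod.ext (funext h₁) (funext h₂)
    have h4 : diaLin hV hsurj ((fun i => c₁ i ^ p ^ padicValNat p (pv i - 1)),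
        (fun j => c₂ j ^ p ^ padicValNat p (qv j - 1))) = 1 := by
      refine LinearMap.ext fun v => Subtype.ext ?_
      exact diaIA_pow p Smin pv qv 𝒪 hsurj c₁ c₂ _
    rw [h3, map_mul, h4, mul_one]
  · -- the identity
    refine ⟨(fun i => ⟨0, hm₁ i⟩, fun j => ⟨0, hm₂ j⟩), ?_⟩
    have h3 : (((fun i => g₁ i ^ ((⟨0, hm₁ i⟩ : Fin (p ^ padicValNat p (pv i - 1))) : ℕ)),
        (fun j => g₂ j ^ ((⟨0, hm₂ j⟩ : Fin (p ^ padicValNat p (qv j - 1))) : ℕ))) :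
        (∀ i : Fin k, (ZMod (pv i))ˣ) × (∀ j : Fin r, (ZMod (qv j))ˣ)) = 1 :=
      Prod.ext (funext fun i => pow_zero _) (funext fun j => pow_zero _)
    rw [h3, map_one]
  · -- the basis
    intro y
    obtain ⟨c, hc, hcu⟩ := hb y
    have key : ∀ c' : Fin d' → (∀ i : Fin k, Fin (p ^ padicValNat p (pv i - 1))) ×
        (∀ j : Fin r, Fin (p ^ padicValNat p (qv j - 1))) → 𝒪,
        (y = ∑ i, ∑ e, c' i e • diaLin hV hsurj
          ((fun i' => g₁ i' ^ (e.1 i' : ℕ)), (fun j => g₂ j ^ (e.2 j : ℕ))) (b i)) ↔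
        ((y : XIA p Smin pv qv 𝒪) = ∑ i, ∑ e, c' i e • diaIA p Smin pv qv 𝒪
          (fun i' => g₁ i' ^ (e.1 i' : ℕ)) (fun j => g₂ j ^ (e.2 j : ℕ)) (b i)) := by
      intro c'
      rw [Subtype.ext_iff, Submodule.coe_sum]
      have : ∀ i : Fin d', ((∑ e, c' i e • diaLin hV hsurj
          ((fun i' => g₁ i' ^ (e.1 i' : ℕ)), (fun j => g₂ j ^ (e.2 j : ℕ))) (b i) : V) :
          XIA p Smin pv qv 𝒪) = ∑ e, c' i e • diaIA p Smin pv qv 𝒪
          (fun i' => g₁ i' ^ (e.1 i' : ℕ)) (fun j => g₂ j ^ (e.2 j : ℕ)) (b i) := by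
        intro i
        rw [Submodule.coe_sum]
        rfl
      simp only [this]
    exact ⟨c, (key c).mpr hc, fun c' hc' => hcu c' ((key c').mp hc')⟩
  · -- the kernel
    intro y
    rw [hπk y]
    have hset : {z : V | ∃ (a₁ : ∀ i : Fin k, (ZMod (pv i))ˣ)
        (a₂ : ∀ j : Fin r, (ZMod (qv j))ˣ) (y' : V),
        (z : XIA p Smin pv qv 𝒪) = diaIA p Smin pv qv 𝒪 a₁ a₂ y' - y'} =
        {z : V | ∃ (a : (∀ i : Fin k, (ZMod (pv i))ˣ) × (∀ j : Fin r, (ZMod (qv j))ˣ))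
          (y' : V), z = diaLin hV hsurj a y' - y'} := by
      ext z
      constructor
      · rintro ⟨a₁, a₂, y', h⟩
        exact ⟨(a₁, a₂), y', Subtype.ext h⟩
      · rintro ⟨a, y', h⟩
        exact ⟨a.1, a.2, y', congrArg Subtype.val h⟩
    rw [hset]

end Rank

/-! ## The assembly -/

/-- **Glue B of layer 3 of the cell HECKE**: the abstract Betti module from the concrete
leaves. -/
theorem iaBetti_of_leaves (hIdem : IdemStatement) (hNon : IANontrivStatement)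
    (hMod : IAModStatement) (hFree : IAFreeStatement) (hCtrl : IACtrlStatement)
    (hRank : IARankStatement) (hCmp : IACmpStatement) (hNu : IANuStatement)
    (hSt : IAStStatement) : IABettiStatement := by
  intro p hpF hp5 𝒪 _ _ _ _ _ _ ρbar Smin h hflat Piv hPiv hL θ₀ hθ₀ hmin k pv hpv hpvPiv
  -- the module at the level `L`
  obtain ⟨V₀, hV₀⟩ := hIdem 𝒪 (ribetLevel p Smin Piv) (NeZero.ne _)
    (Gamma0 (ribetLevel p Smin Piv)) (isMid_Gamma0 _) (TsetOfθ θ₀) ∅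
    (fun x hx => by
      obtain ⟨hℓ, hℓN, -, -⟩ := hx
      exact ⟨hℓ, hℓN⟩)
    (fun x hx => absurd hx (Set.notMem_empty x))
  obtain ⟨d, hd, ⟨B₀⟩⟩ := hNon p hp5 𝒪 ρbar Smin h hflat Piv hPiv θ₀ hθ₀ V₀ hV₀
  refine ⟨d, hd, ?_⟩
  intro n r qv hq hNQ hp PQ hθ
  obtain ⟨hqinj, hqv, hfrob⟩ := id hq
  -- the primes
  have hpvMem : ∀ i, pv i ∈ Piv := fun i => by
    rw [← hpvPiv]
    exact Finset.mem_image_of_mem pv (Finset.mem_univ i)
  have hpvP : ∀ i, (pv i).Prime := fun i => (hPiv (pv i) (hpvMem i)).1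
  have hqvP : ∀ j, (qv j).Prime := fun j => (hqv j).1
  have hPivP : ∀ q ∈ Piv, q.Prime := fun q hq' => (hPiv q hq').1
  have hQP : ∀ q ∈ Finset.univ.image qv, q.Prime := by
    intro q hq'
    obtain ⟨j, -, rfl⟩ := Finset.mem_image.mp hq'
    exact hqvP j
  have hSigP : ∀ q ∈ Smin ∪ Piv ∪ Finset.univ.image qv, q.Prime := by
    intro q hq'
    rcases Finset.mem_union.mp hq' with h' | h'
    · rcases Finset.mem_union.mp h' with h'' | h''
      · exact h.hSmin q h''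
      · exact hPivP q h''
    · exact hQP q h'
  have hsub : Smin ⊆ Smin ∪ Piv ∪ Finset.univ.image qv :=
    Finset.subset_union_left.trans Finset.subset_union_left
  have hpvSig : ∀ i, pv i ∈ Smin ∪ Piv ∪ Finset.univ.image qv := fun i =>
    Finset.mem_union_left _ (Finset.mem_union_right _ (hpvMem i))
  have hqvSig : ∀ j, qv j ∈ Smin ∪ Piv ∪ Finset.univ.image qv := fun j =>
    Finset.mem_union_right _ (Finset.mem_image_of_mem qv (Finset.mem_univ j))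
  -- the combined family
  have hprime : ∀ s, (Sum.elim pv qv s).Prime := by
    intro s
    cases s with
    | inl i => exact hpvP i
    | inr j => exact hqvP j
  have hinj : Function.Injective (Sum.elim pv qv) := by
    intro s s' hss
    cases s with
    | inl i =>
      cases s' with
      | inl i' => exact congrArg Sum.inl (hpv hss)
      | inr j' =>
        exfalso
        have h1 : pv i = qv j' := hss
        exact (hqv j').2.1 (Finset.mem_union_right _ (h1 ▸ hpvMem i))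
    | inr j =>
      cases s' with
      | inl i' =>
        exfalso
        have h1 : qv j = pv i' := hss
        exact (hqv j).2.1 (Finset.mem_union_right _ (h1.symm ▸ hpvMem i'))
      | inr j' => exact congrArg Sum.inr (hqinj hss)
  have hN₀ : wilesLevel p .flat Smin Smin ≠ 0 := wilesLevel_ne_zero hpF.out h.hSmin h.hSmin
  have hsurj : Function.Surjective (gRed (wilesLevel p .flat Smin Smin) (Sum.elim pv qv)) :=
    gRed_surjective _ _ hN₀ hinj hprime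
  haveI hMne : NeZero (MIA p Smin pv qv) := ⟨gLevel_ne_zero _ _ hN₀ hprime⟩
  have hsig : ∀ q : ℕ, q.Prime →
      q ∣ wilesLevel p .flat Smin (Smin ∪ Piv ∪ Finset.univ.image qv) →
      q ∈ (↑(Smin ∪ Piv ∪ Finset.univ.image qv) : Set ℕ) := fun q hq' hd' =>
    Finset.mem_coe.mpr (mem_of_prime_dvd_wilesLevel hpF.out h.hSmin hSigP h.hpSmin hsub q hq' hd')
  have hM : ∀ ℓ : ℕ, ℓ.Prime →
      ¬ ℓ ∣ wilesLevel p .flat Smin (Smin ∪ Piv ∪ Finset.univ.image qv) →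
      ℓ ∉ (↑(Smin ∪ Piv ∪ Finset.univ.image qv) : Set ℕ) → ¬ ℓ ∣ MIA p Smin pv qv := by
    intro ℓ hℓ _ hℓS hdvd
    apply hℓS
    rcases (Nat.Prime.dvd_mul hℓ).mp hdvd with h1 | h1
    · exact Finset.mem_coe.mpr (hsub (mem_of_prime_dvd_wilesLevel hpF.out h.hSmin h.hSmin
        h.hpSmin (Finset.Subset.refl _) ℓ hℓ h1))
    · obtain ⟨s, -, hs⟩ := (Prime.dvd_finsetProd_iff hℓ.prime _).mp h1
      have h2 : ℓ = Sum.elim pv qv s := (Nat.prime_dvd_prime_iff_eq hℓ (hprime s)).mp hs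
      rw [h2]
      cases s with
      | inl i => exact Finset.mem_coe.mpr (hpvSig i)
      | inr j => exact Finset.mem_coe.mpr (hqvSig j)
  -- the Frobenius lifts
  choose Pv φv hPv hφv using fun j => Fermat.Agent.S54.exists_frobenius (qv j) (hqvP j)
  choose α₀ β hαβ hchar using fun j => hfrob j (Pv j) (hPv j) (φv j) (hφv j)
  choose α hα using fun j => residue_surjective (α₀ j)
  have hαL : IsFrobLift ρbar qv α := by
    intro j
    refine ⟨Pv j, φv j, β j, hPv j, hφv j, ?_, ?_⟩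
    · rw [hα j]
      exact hαβ j
    · rw [hα j]
      exact hchar j
  -- the module at the level `Q`
  obtain ⟨V, hV⟩ := hIdem 𝒪 (MIA p Smin pv qv) hMne.out (KIA p Smin pv qv)
    (isMid_KIA p Smin pv qv) (TsetOf PQ) (UsetOf qv α)
    (fun x hx => by
      obtain ⟨hℓ, hℓN, hℓS, -⟩ := hx
      exact ⟨hℓ, hM _ hℓ hℓN hℓS⟩)
    (fun x hx => by
      obtain ⟨j, rfl⟩ := hx
      exact ⟨hqvP j, dvd_gLevel _ (Sum.elim pv qv) (Sum.inr j)⟩)
  have hVp : IsIAPart PQ α V := hV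
  obtain ⟨hh, a, hhalf₁, hhalf₂, ha⟩ := hMod p hp5 𝒪 ρbar Smin h hflat Piv hPiv k pv hpv hpvPiv
    n r qv hq PQ α hαL V hVp
  obtain ⟨d', hfree⟩ := hFree p hp5 𝒪 ρbar Smin h hflat Piv hPiv k pv hpv hpvPiv
    n r qv hq PQ α hαL V hVp
  have hctrl := hCtrl p hp5 𝒪 ρbar Smin h hflat Piv hPiv θ₀ hθ₀ k pv hpv hpvPiv
    n r qv hq hp PQ hθ α hαL V₀ V hV₀ hVp
  have hdd : d' = d := rank_eq_of_ctrl hVp hsurj hRank hpvP hqvP hfree hctrl B₀
  subst hdd
  have hnu := hNu p hp5 𝒪 ρbar Smin h hflat Piv hPiv k pv hpv hpvPiv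
    n r qv hq PQ α hαL V hh a hVp hhalf₁ hhalf₂ ha
  have hst := hSt p hp5 𝒪 ρbar Smin h hflat Piv hPiv hmin k pv hpv hpvPiv
    n r qv hq PQ α hαL V hh a hVp hhalf₁ hhalf₂ ha
  have hcmp := hCmp p hp5 𝒪 ρbar Smin h hflat Piv hPiv k pv hpv hpvPiv
    n r qv hq PQ α hαL V hh a hVp hhalf₁ hhalf₂ ha
  exact ⟨bettiOf hVp ha hsig hM hsurj d' hfree hnu hst,
    bettiOf_cmp hVp ha hsig hM hsurj d' hfree hnu hst hcmp⟩

end Fermat.Agent.S38.IA.Hecke
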