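import Fermat.Agent.S38.IA.Hecke.Wire4
import Fermat.Agent.S38.H593.StAsm
import Fermat.Agent.S38.H509.StCor593
import Fermat.Agent.S38.H59.MinZeroGlue

/-!
# Row HARD, cell HECKE: CLOSED  (helper3)

`iaHecke5_of_rows` : the cell HECKE (`IAHecke5Statement`) from RESULTS OF OTHER ROWS ONLY:

| hypothesis | Prop | theorem |
|---|---|---|
| `hPkg` | `Hecke.PkgFlatStatement` | `IA.pkgFlat_h995` (trunk; from S23, S30, S31, S32, S34) |
| `hG4` | `S59.G4.G4Statement` | `S59.H294.g4_294` |
| `h34` | `S59.TW.H494.S34Shape494` | `S34.result` |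
| `h30` | `S31.S30Statement` | `S30.result` |
| `hIS` | `∀ M, HasIntegralStructure M 2` | `S23.result` |
| `h35` | `S58.S35Statement` | `S35.result` |
| `h36` | `S58.S36Statement` | `S36.result` |

(kept as hypotheses in order to keep this file light and free of the statement modules; they
are plugged in on the trunk).

All the leaves of the layers 3 and 4 are plugged in:
IDEM (helper511), IA-NONTRIV, IA-RANK (helper483), IA-FREE (helper916), IA-MOD (helper781),
IA-CTRL (helper299, helper483, helper105, helper903), IA-CMP (helper183; IA-DICT-T helper81,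
IA-DICT-R helper227; Galois half helper494, helper788), IA-NU (helper47, helper227, helper473),
IA-ST (helper593 `iaStPt_h593`; COR helper509 `iaStCor593_h509`; IA-MINZERO helper59
`iaMinZero59`; helper264, helper53, helper201, helper719, helper841, helper666, helper653), the
kill glue (helper473, helper113), glue A (helper354), glue B, layer 2.
-/

set_option autoImplicit false

namespace Fermat.Agent.S38.IA.Hecke

open Fermat.Agent.S59.TW

/-- **IA-ST at the point level, closed** (from the frozen S35). -/
theorem iaStPt953_closed (h35 : Fermat.Agent.S58.S35Statement) :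
    Fermat.Agent.S38.H953.IAStPtStatement953 :=
  Fermat.Agent.S38.H593.iaStPt_h593 Fermat.Agent.S38.H59.iaMinZero59 h35
    Fermat.Agent.S38.H509.iaStCor593_h509

/-- **The mountain IA-ST, closed** (from the frozen S35). -/
theorem iaSt_closed (h35 : Fermat.Agent.S58.S35Statement) : IAStStatement :=
  Fermat.Agent.S38.H473.iaSt_of_pt Fermat.Agent.S38.H916.iaFree_h916
    (iaStPt_of_953 (iaStPt953_closed h35))

/-- **The mountain IA-NU, closed** (from the frozen S36). -/
theorem iaNu_closed (h36 : Fermat.Agent.S58.S36Statement) : IANuStatement :=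
  Fermat.Agent.S38.H473.iaNu_of_pt Fermat.Agent.S38.H916.iaFree_h916
    (Fermat.Agent.S38.H47.iaNuPt h36)

/-- **The mountain IA-CTRL, closed.** -/
theorem iaCtrl_closed : IACtrlStatement := Fermat.Agent.S38.H299.iaCtrl299

/-- **THE CELL HECKE OF ROW HARD, CLOSED**: `IAHecke5Statement` from results of the rows
S23, S30, S31, S32, S34 (`hPkg`), S35, S36 and of the cell G4 of row S59. -/
theorem iaHecke5_of_rows (hPkg : PkgFlatStatement)
    (hG4 : Fermat.Agent.S59.G4.G4Statement)
    (h34 : Fermat.Agent.S59.TW.H494.S34Shape494)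
    (h30 : Fermat.Agent.S31.S30Statement)
    (hIS : ∀ (M : ℕ) [NeZero M], CuspForm.HasIntegralStructure M 2)
    (h35 : Fermat.Agent.S58.S35Statement)
    (h36 : Fermat.Agent.S58.S36Statement) : IAHecke5Statement :=
  iaHecke5_of_open1 hPkg hG4 h34 h30 hIS h36 (iaStPt_of_953 (iaStPt953_closed h35))

end Fermat.Agent.S38.IA.Hecke
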