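import Fermat.Agent.S38.IA.Hecke.Wire
import Fermat.Agent.S38.H483.IACtrl
import Fermat.Agent.S38.IA.Hecke.H183.CmpWireIA
import Fermat.Agent.S38.H299.IACtrl
import Fermat.Agent.S38.H47.IANu
import Fermat.Agent.S38.IA.Hecke.H81.IADictT
import Fermat.Agent.S38.H227.IADictR

/-!
# Row HARD, cell HECKE: the wiring at LAYER 4  (helper3)

`iaHecke5_of_layer4` : the cell HECKE from the leaves of layer 4 which are OPEN:

| mountain | open leaf | Prop | owners |
|---|---|---|---|
| IA-CTRL | CHAIN | `H483.IAChainStatement` | helper299, helper105, helper359 |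
| IA-CMP | DICT-T | `H183.IADictTStatement` | helper81 |
| IA-CMP | DICT-R | `H183.IADictRStatement` | helper227, helper361 |
| IA-NU | point level | `H473.IANuPtStatement` (or `H953.IANuPtStatement953`) | helper47 |
| IA-ST | point level | `H473.IAStPtStatement` (or `H953.IAStPtStatement953`) | helper593, helper509 |

The other hypotheses are theorems of the rows S23, S30, S34, S36 and of the cell G4 of row S59
(kept as hypotheses here in order to keep this file light; they are plugged in on the trunk):
`PkgFlatStatement` (`IA.pkgFlat_h995`), `G4Statement` (`S59.H294.g4_294`), `S34Shape494`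
(`S34.result`), `S30Statement` (`S30.result`), `HasIntegralStructure` (`S23.result`),
`S36Statement` (`S36.result`).

Plugged in: everything of `Wire.lean`, the glue of IA-CTRL (helper483: COR + NAT,
`iaCtrl_of_chain483`) and the glue and the Galois half of IA-CMP (helper183:
`iaCmp_of_dict`).
-/

set_option autoImplicit false

namespace Fermat.Agent.S38.IA.Hecke

open Fermat.Agent.S59.TW

/-- **The cell HECKE of row HARD from the open leaves of layer 4.** -/
theorem iaHecke5_of_layer4 (hPkg : PkgFlatStatement)
    (hChain : Fermat.Agent.S38.H483.IAChainStatement)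
    (hDT : H183.IADictTStatement) (hDR : H183.IADictRStatement)
    (hG4 : Fermat.Agent.S59.G4.G4Statement)
    (h34 : Fermat.Agent.S59.TW.H494.S34Shape494)
    (h30 : Fermat.Agent.S31.S30Statement)
    (hIS : ∀ (M : ℕ) [NeZero M], CuspForm.HasIntegralStructure M 2)
    (h36 : Fermat.Agent.S58.S36Statement)
    (hNuPt : Fermat.Agent.S38.H473.IANuPtStatement)
    (hStPt : Fermat.Agent.S38.H473.IAStPtStatement) : IAHecke5Statement :=
  iaHecke5_of_pt hPkg
    (Fermat.Agent.S38.H483.iaCtrl_of_chain483 Fermat.Agent.S59.TW.Aut.H511.idem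
      Fermat.Agent.S38.H916.iaFree_h916 hChain)
    (H183.iaCmp_of_dict Fermat.Agent.S38.H916.iaFree_h916 hDT hDR hG4 h34 h30 hIS h36)
    hNuPt hStPt

/-- **The cell HECKE of row HARD from its THREE open leaves** IA-DICT-T, IA-DICT-R (mountain
IA-CMP) and the point-level form of IA-ST.  Plugged in: IA-CTRL (helper299 `iaCtrl299`:
the chain of helper105, the glue of helper483), IA-NU (helper47 `iaNuPt`, from the frozen S36). -/
theorem iaHecke5_of_open3 (hPkg : PkgFlatStatement)
    (hDT : H183.IADictTStatement) (hDR : H183.IADictRStatement)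
    (hG4 : Fermat.Agent.S59.G4.G4Statement)
    (h34 : Fermat.Agent.S59.TW.H494.S34Shape494)
    (h30 : Fermat.Agent.S31.S30Statement)
    (hIS : ∀ (M : ℕ) [NeZero M], CuspForm.HasIntegralStructure M 2)
    (h36 : Fermat.Agent.S58.S36Statement)
    (hStPt : Fermat.Agent.S38.H473.IAStPtStatement) : IAHecke5Statement :=
  iaHecke5_of_pt hPkg Fermat.Agent.S38.H299.iaCtrl299
    (H183.iaCmp_of_dict Fermat.Agent.S38.H916.iaFree_h916 hDT hDR hG4 h34 h30 hIS h36)
    (Fermat.Agent.S38.H47.iaNuPt h36) hStPt

/-- **The cell HECKE of row HARD from its LAST open leaf**, the point-level form of IA-ST.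
Plugged in: IA-CTRL (helper299), IA-NU (helper47), IA-DICT-T (helper81 `iaDictT`), IA-DICT-R
(helper227 `iaDictR227`), the glue and the Galois half of IA-CMP (helper183). -/
theorem iaHecke5_of_open1 (hPkg : PkgFlatStatement)
    (hG4 : Fermat.Agent.S59.G4.G4Statement)
    (h34 : Fermat.Agent.S59.TW.H494.S34Shape494)
    (h30 : Fermat.Agent.S31.S30Statement)
    (hIS : ∀ (M : ℕ) [NeZero M], CuspForm.HasIntegralStructure M 2)
    (h36 : Fermat.Agent.S58.S36Statement)
    (hStPt : Fermat.Agent.S38.H473.IAStPtStatement) : IAHecke5Statement :=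
  iaHecke5_of_open3 hPkg H81.iaDictT Fermat.Agent.S38.H227.iaDictR227 hG4 h34 h30 hIS h36 hStPt

/-- The mountain IA-CMP, closed (from results of the rows S23, S30, S34, S36 and the cell G4). -/
theorem iaCmp_closed
    (hG4 : Fermat.Agent.S59.G4.G4Statement)
    (h34 : Fermat.Agent.S59.TW.H494.S34Shape494)
    (h30 : Fermat.Agent.S31.S30Statement)
    (hIS : ∀ (M : ℕ) [NeZero M], CuspForm.HasIntegralStructure M 2)
    (h36 : Fermat.Agent.S58.S36Statement) : IACmpStatement :=
  H183.iaCmp_of_dict Fermat.Agent.S38.H916.iaFree_h916 H81.iaDictT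
    Fermat.Agent.S38.H227.iaDictR227 hG4 h34 h30 hIS h36

end Fermat.Agent.S38.IA.Hecke
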