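import Fermat.Agent.S38.IA.Hecke.Asm
import Fermat.Agent.S38.IA.Hecke.Spec3

/-!
# Row HARD, cell HECKE, layer 2 for `5 ≤ p`: the assembly  (helper3)

`iaHecke5_of_leaves : PkgFlatStatement → IAAut5Statement → TW.InertiaExistsStatement →
  TW.InertiaOrderStatement → TW.CycloSurjStatement → TW.AlgStatement → IAHecke5Statement`
(the proof of `iaHecke_of_leaves`, with the hypothesis `5 ≤ p` carried along), and
`iaHecke5_of_iaHecke`.
-/

set_option autoImplicit false

open Polynomial IsLocalRing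

namespace Fermat.Agent.S38.IA.Hecke

open Fermat.Agent.S59.Arch Fermat.Agent.S59.TW.H959 Fermat.Agent.S59.TW Fermat.Agent.S59.H765
open CuspForm

/-- `IA.IAHeckeStatement` implies its restriction to `5 ≤ p`. -/
theorem iaHecke5_of_iaHecke (h : IAHeckeStatement) : IAHecke5Statement :=
  fun p _ _ 𝒪 _ _ _ _ _ _ ρbar Smin hh hflat ζ hζ Piv hPiv hmod hmin =>
    h p 𝒪 ρbar Smin hh hflat ζ hζ Piv hPiv hmod hmin

/-! ## The assembly -/

/-- **Layer 2 of the cell HECKE of row HARD, `5 ≤ p`**: `IAHecke5Statement` from its leaves. -/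
theorem iaHecke5_of_leaves (hPkg : PkgFlatStatement) (hAut : IAAut5Statement)
    (hInx : InertiaExistsStatement) (hIno : InertiaOrderStatement)
    (hCyc : CycloSurjStatement) (hAlg : AlgStatement) : IAHecke5Statement := by
  intro p hpF hp5 𝒪 _ _ _ _ _ _ ρbar Smin h hflat ζ hζ Piv hPiv hmod hmin
  obtain ⟨hL, θ₀, hθ₀⟩ := hmod
  haveI := hL
  obtain ⟨d, hd, hA⟩ := hAut p hp5 𝒪 ρbar Smin h hflat ζ hζ Piv hPiv θ₀ hθ₀ hmin
  refine ⟨d, hd, ?_⟩
  intro n r qv hq
  obtain ⟨-, hqv, hfrob⟩ := id hq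
  have hPivP : ∀ q ∈ Piv, q.Prime := fun q hq' => (hPiv q hq').1
  have hdisj : ∀ q ∈ Piv, q ∉ Smin := fun q hq' => (hPiv q hq').2.1
  -- the level `Q`
  have hQP : ∀ q ∈ Finset.univ.image qv, q.Prime := by
    intro q hq'
    obtain ⟨j, -, rfl⟩ := Finset.mem_image.mp hq'
    exact (hqv j).1
  have hSigP : ∀ q ∈ Smin ∪ Piv ∪ Finset.univ.image qv, q.Prime := by
    intro q hq'
    rcases Finset.mem_union.mp hq' with h' | h'
    · rcases Finset.mem_union.mp h' with h'' | h''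
      · exact h.hSmin q h''
      · exact hPivP q h''
    · exact hQP q h'
  have hsub : Smin ⊆ Smin ∪ Piv ∪ Finset.univ.image qv :=
    Finset.subset_union_left.trans Finset.subset_union_left
  have hNQ : NeZero (wilesLevel p .flat Smin (Smin ∪ Piv ∪ Finset.univ.image qv)) :=
    ⟨wilesLevel_ne_zero hpF.out h.hSmin hSigP⟩
  have hp := levelPairIA p h.hSmin hPivP hQP hdisj h.hpSmin
  have hθQ : Fermat.Agent.S59.G4.ResFrobCond ρbar (θ₀.comp (oldRestrict hp)) :=
    resFrobCond_comp hp hθ₀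
  obtain ⟨PQ, hθPQ⟩ := hPkg p 𝒪 ρbar Smin h hflat (Smin ∪ Piv ∪ Finset.univ.image qv)
    hsub hSigP (θ₀.comp (oldRestrict hp)) hθQ
  obtain ⟨A, hCmp⟩ := hA n r qv hq hp PQ hθPQ
  -- primitive roots, places, Frobenius and inertia elements, eigenvalues
  choose g hgord hggen using fun j => exists_primitive_root_units (hqv j).1
  choose Pv φv hPv hφv using fun j => Fermat.Agent.S54.exists_frobenius (qv j) (hqv j).1
  choose σv hσv hcyc using fun j => hCyc (qv j) (hqv j).1 (Pv j) (hPv j) (g j)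
  choose α β hαβ hchar using fun j => hfrob j (Pv j) (hPv j) (φv j) (hφv j)
  choose αv hαv using fun j => residue_surjective (α j)
  -- inertia values
  have hcharT : ∀ j, LinearMap.charpoly (PQ.H.ρ.residual.ρ (φv j)) =
      (X - C (residue PQ.T (algebraMap 𝒪 PQ.T (αv j)))) *
        (X - C (ResidueField.map (algebraMap 𝒪 PQ.T) (β j))) := by
    intro j
    rw [charpoly_eq_of_residual_isEquiv PQ.hres, charpoly_residual_baseChangeAlong, hchar j,
      Polynomial.map_mul, Polynomial.map_sub, Polynomial.map_sub, Polynomial.map_X,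
      Polynomial.map_C, Polynomial.map_C, ← hαv j, ResidueField.map_residue]
  have hne : ∀ j, residue PQ.T (algebraMap 𝒪 PQ.T (αv j)) ≠
      ResidueField.map (algebraMap 𝒪 PQ.T) (β j) := by
    intro j hj
    rw [← ResidueField.map_residue, hαv j] at hj
    exact hαβ j ((ResidueField.map (algebraMap 𝒪 PQ.T)).injective hj)
  choose w hw using fun j => hInx PQ.T PQ.H.ρ (φv j) (σv j) (algebraMap 𝒪 PQ.T (αv j))
    (ResidueField.map (algebraMap 𝒪 PQ.T) (β j)) (hne j) (hcharT j)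
  -- the order of the inertia values
  haveI : Finite (ResidueField PQ.T) := by
    refine Finite.of_surjective (ResidueField.map (algebraMap 𝒪 PQ.T)) ?_
    intro x
    obtain ⟨y, hy⟩ := PQ.H.residue_surjective x
    exact ⟨residue 𝒪 y, by rw [ResidueField.map_residue]; exact hy⟩
  have hpT : (p : PQ.T) ∈ maximalIdeal PQ.T := by
    have h1 := h.hp𝒪
    rw [mem_maximalIdeal, mem_nonunits_iff] at h1 ⊢
    intro hu
    apply h1
    have : IsUnit (algebraMap 𝒪 PQ.T (p : 𝒪)) := by rwa [map_natCast]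
    exact IsLocalHom.map_nonunit _ this
  have hdet : PQ.H.ρ.DetIsCyclotomic p := PQ.hcond.1.1
  have hqS : ∀ j, qv j ∉ Smin := fun j hj => (hqv j).2.1 (Finset.mem_union_left _ hj)
  have hqp : ∀ j, qv j ≠ p := by
    intro j hj
    exact hqS j (hj ▸ h.hpSmin)
  have hunr : ∀ j, PQ.H.ρ.residual.IsUnramifiedAt (qv j) := by
    intro j
    refine isUnramifiedAt_of_residual_isEquiv' PQ.hres
      (isUnramifiedAt_residual_baseChangeAlong _ ?_)
    by_contra hcon
    exact hqS j ((h.hmin (qv j) (hqv j).1 (hqp j)).mpr hcon)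
  have hpq : ∀ j, p ∣ qv j - 1 := fun j =>
    Dvd.dvd.trans (dvd_pow_self p (Nat.succ_ne_zero n)) (hqv j).2.2
  have hord : ∀ j, w j ^ (p ^ padicValNat p (qv j - 1)) = 1 := by
    intro j
    obtain ⟨w', -, h2, -⟩ := hIno p PQ.T hpT PQ.H.ρ hdet (qv j) (hqv j).1 (hqp j) (hpq j)
      (hunr j) (Pv j) (hPv j) (φv j) (hφv j) (σv j) (hσv j) _ (w j) (hw j)
    exact h2
  -- the comparison
  have hrange : ∀ (j : Fin r) (y : A.MQ),
      (∃ y' : A.MQ, y = w j • y' - y') ↔ ∃ y' : A.MQ, y = A.dia (Pi.mulSingle j (g j)) y' - y' :=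
    fun j => hCmp j (Pv j) (hPv j) (φv j) (hφv j) (σv j) (hσv j) (g j) (hgord j) (hcyc j) _
      (w j) (hw j)
  -- the basis
  have hn : ∀ j, n ≤ padicValNat p (qv j - 1) := by
    intro j
    have h0 : qv j - 1 ≠ 0 := Nat.sub_ne_zero_of_lt (hqv j).1.one_lt
    exact (Nat.le_succ n).trans ((padicValNat_dvd_iff_le h0).mp (hqv j).2.2)
  have hX : ∀ j, A.dia (Pi.mulSingle j (g j)) ^ (p ^ padicValNat p (qv j - 1)) = 1 := by
    intro j
    rw [← map_pow, ← A.dia_pow (Pi.mulSingle j (g j))]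
    congr 1
    funext i
    by_cases hij : i = j
    · subst hij
      simp only [Pi.pow_apply, Pi.mulSingle_eq_same]
    · simp only [Pi.pow_apply, Pi.mulSingle_eq_of_ne hij, one_pow]
  have hpJ : (p : 𝒪) ∈ Ideal.jacobson (⊥ : Ideal 𝒪) := by
    rw [IsLocalRing.jacobson_eq_maximalIdeal ⊥ bot_ne_top]
    exact h.hp𝒪
  obtain ⟨b, hb⟩ := A.free g hgord
  have hgrb : IsGroupRingBasis 𝒪 (p ^ n) w b :=
    hAlg p hpF.out h.hp2 𝒪 hpJ PQ.T A.MQ r (fun j => (ZMod (qv j))ˣ)
      (fun j => padicValNat p (qv j - 1)) n hn A.dia g hX d b hb w hord hrange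
  exact ⟨hNQ, PQ, A.MQ, inferInstance, inferInstance, w, b, hgrb,
    fun i => sub_one_mem_maximalIdeal_of_pow_eq_one hpF.out hpT (hord i), A.supp_nu, A.st⟩

end Fermat.Agent.S38.IA.Hecke
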