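import Fermat.Agent.S38.IA.Hecke.LevelLemmas
import Fermat.Agent.S59.TW.Aut.SkelLemmas

/-!
# Row HARD, cell HECKE, layer 3, glue B, part 1: the Betti module of a localisation  (helper3)

For `V ⊆ X_K(𝒪)` with `IsIAPart PQ α V` and an action `a` of `T_Q` with `IsIAAction PQ V h a`:
* `VMod V a` : `V` as a `T_Q`-module;
* `diaMod` : the `T_Q`-linear diamond action of `∏ (ℤ/pv i)ˣ × ∏ (ℤ/qv j)ˣ` on `VMod V a`;
* the conversions of `IAFreeAt`, `IACmpAt`, `IANuAt`, `IAStAt` into the fields of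
  `IABettiLevel` (`bettiOf`).
-/

set_option autoImplicit false

open Polynomial IsLocalRing CongruenceSubgroup
open scoped MatrixGroups

namespace Fermat.Agent.S38.IA.Hecke

open Fermat.Agent.S59.Arch Fermat.Agent.S59.TW.H959 Fermat.Agent.S59.TW Fermat.Agent.S59.H765
open Fermat.Agent.S59.TW.H653 Fermat.Agent.S59.TW.Aut
open CuspForm

/-! ## The pairs -/

section Pair

variable {k r : ℕ} {pv : Fin k → ℕ} {qv : Fin r → ℕ}

theorem pairU_one : pairU (1 : ∀ i : Fin k, (ZMod (pv i))ˣ) (1 : ∀ j : Fin r, (ZMod (qv j))ˣ) = 1 := by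
  funext s
  cases s <;> rfl

theorem pairU_mul (a₁ b₁ : ∀ i : Fin k, (ZMod (pv i))ˣ) (a₂ b₂ : ∀ j : Fin r, (ZMod (qv j))ˣ) :
    pairU (a₁ * b₁) (a₂ * b₂) = pairU a₁ a₂ * pairU b₁ b₂ := by
  funext s
  cases s <;> rfl

theorem pairU_mem_gPowSub (p : ℕ) (a₁ : ∀ i : Fin k, (ZMod (pv i))ˣ)
    (a₂ : ∀ j : Fin r, (ZMod (qv j))ˣ) :
    pairU (fun i => a₁ i ^ p ^ padicValNat p (pv i - 1))
      (fun j => a₂ j ^ p ^ padicValNat p (qv j - 1)) ∈ gPowSub p (Sum.elim pv qv) := by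
  unfold gPowSub
  rw [Subgroup.mem_pi]
  intro s _
  cases s with
  | inl i => exact ⟨a₁ i, rfl⟩
  | inr j => exact ⟨a₂ j, rfl⟩

end Pair

/-! ## The diamond operators `diaIA` -/

section Dia

variable (p : ℕ) (Smin : Finset ℕ) {k r : ℕ} (pv : Fin k → ℕ) (qv : Fin r → ℕ)
  (𝒪 : Type) [CommRing 𝒪]

theorem diaIA_add (a₁ : ∀ i : Fin k, (ZMod (pv i))ˣ) (a₂ : ∀ j : Fin r, (ZMod (qv j))ˣ)
    (x y : XIA p Smin pv qv 𝒪) :
    diaIA p Smin pv qv 𝒪 a₁ a₂ (x + y) =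
      diaIA p Smin pv qv 𝒪 a₁ a₂ x + diaIA p Smin pv qv 𝒪 a₁ a₂ y := rfl

theorem diaIA_smul (a₁ : ∀ i : Fin k, (ZMod (pv i))ˣ) (a₂ : ∀ j : Fin r, (ZMod (qv j))ˣ)
    (c : 𝒪) (x : XIA p Smin pv qv 𝒪) :
    diaIA p Smin pv qv 𝒪 a₁ a₂ (c • x) = c • diaIA p Smin pv qv 𝒪 a₁ a₂ x := rfl

theorem diaIA_sub (a₁ : ∀ i : Fin k, (ZMod (pv i))ˣ) (a₂ : ∀ j : Fin r, (ZMod (qv j))ˣ)
    (x y : XIA p Smin pv qv 𝒪) :
    diaIA p Smin pv qv 𝒪 a₁ a₂ (x - y) =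
      diaIA p Smin pv qv 𝒪 a₁ a₂ x - diaIA p Smin pv qv 𝒪 a₁ a₂ y := by
  unfold diaIA diamondU diamond
  exact AddMonoidHom.ext fun _ => rfl

variable [NeZero (MIA p Smin pv qv)]
  (hsurj : Function.Surjective (gRed (wilesLevel p .flat Smin Smin) (Sum.elim pv qv)))

include hsurj in
theorem diaIA_one (x : XIA p Smin pv qv 𝒪) : diaIA p Smin pv qv 𝒪 1 1 x = x := by
  unfold diaIA
  rw [pairU_one]
  exact diamondU_gLift_one p _ _ hsurj x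

include hsurj in
theorem diaIA_mul (a₁ b₁ : ∀ i : Fin k, (ZMod (pv i))ˣ) (a₂ b₂ : ∀ j : Fin r, (ZMod (qv j))ˣ)
    (x : XIA p Smin pv qv 𝒪) :
    diaIA p Smin pv qv 𝒪 (a₁ * b₁) (a₂ * b₂) x =
      diaIA p Smin pv qv 𝒪 a₁ a₂ (diaIA p Smin pv qv 𝒪 b₁ b₂ x) := by
  unfold diaIA
  rw [pairU_mul]
  exact diamondU_gLift_mul p _ _ hsurj _ _ x

include hsurj in
theorem diaIA_pow (a₁ : ∀ i : Fin k, (ZMod (pv i))ˣ) (a₂ : ∀ j : Fin r, (ZMod (qv j))ˣ)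
    (x : XIA p Smin pv qv 𝒪) :
    diaIA p Smin pv qv 𝒪 (fun i => a₁ i ^ p ^ padicValNat p (pv i - 1))
      (fun j => a₂ j ^ p ^ padicValNat p (qv j - 1)) x = x := by
  unfold diaIA
  exact diamondU_gLift_of_mem p _ _ hsurj (pairU_mem_gPowSub p a₁ a₂) x

end Dia

/-! ## `V` as a module over the Hecke ring -/

section Mod

variable {p : ℕ}
  {𝒪 : Type} [CommRing 𝒪] [IsDomain 𝒪] [IsDiscreteValuationRing 𝒪]
  [IsAdicComplete (maximalIdeal 𝒪) 𝒪]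
  {ρbar : ResidualGaloisRep (ResidueField 𝒪)} {Smin Piv : Finset ℕ}
  {k r : ℕ} {pv : Fin k → ℕ} {qv : Fin r → ℕ}
  [NeZero (wilesLevel p .flat Smin (Smin ∪ Piv ∪ Finset.univ.image qv))]
  {PQ : HeckePkg p 𝒪 ρbar .flat Smin (Smin ∪ Piv ∪ Finset.univ.image qv)}

/-- `V` with the action of `T_Q` through `a`. -/
def VMod (V : Submodule 𝒪 (XIA p Smin pv qv 𝒪)) (_a : PQ.T →ₐ[𝒪] Module.End 𝒪 V) : Type := V

variable {V : Submodule 𝒪 (XIA p Smin pv qv 𝒪)} {a : PQ.T →ₐ[𝒪] Module.End 𝒪 V}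

noncomputable instance : AddCommGroup (VMod V a) := inferInstanceAs (AddCommGroup V)

noncomputable instance : Module PQ.T (VMod V a) :=
  Module.compHom V (a : PQ.T →+* Module.End 𝒪 V)

/-- The identification `VMod V a = V`. -/
noncomputable def VMod.mk (v : V) : VMod V a := v

/-- The identification `VMod V a = V`. -/
noncomputable def VMod.val (v : VMod V a) : V := v

theorem VMod.smul_def (t : PQ.T) (v : VMod V a) : t • v = VMod.mk (a t (VMod.val v)) := rfl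

theorem VMod.algebraMap_smul (c : 𝒪) (v : VMod V a) :
    algebraMap 𝒪 PQ.T c • v = VMod.mk (c • VMod.val v) := by
  rw [VMod.smul_def, AlgHom.commutes]
  rfl

end Mod

end Fermat.Agent.S38.IA.Hecke
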