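import Fermat.Agent.S38.IA.Hecke.GlueB1

/-!
# Row HARD, cell HECKE, layer 3, glue B, part 2: `bettiOf`  (helper3)

The abstract Betti module `IABettiLevel` of a localisation `V ⊆ X_K(𝒪)` (`IsIAPart`) with an
action `a` of `T_Q` (`IsIAAction`), given `IAFreeAt V d`, `IANuAt`, `IAStAt`; and its `Cmp` from
`IACmpAt`.
-/

set_option autoImplicit false

open Polynomial IsLocalRing CongruenceSubgroup
open scoped MatrixGroups

namespace Fermat.Agent.S38.IA.Hecke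

open Fermat.Agent.S59.Arch Fermat.Agent.S59.TW.H959 Fermat.Agent.S59.TW Fermat.Agent.S59.H765
open Fermat.Agent.S59.TW.H653 Fermat.Agent.S59.TW.Aut
open CuspForm

section Build

variable {p : ℕ}
  {𝒪 : Type} [CommRing 𝒪] [IsDomain 𝒪] [IsDiscreteValuationRing 𝒪]
  [IsAdicComplete (maximalIdeal 𝒪) 𝒪]
  {ρbar : ResidualGaloisRep (ResidueField 𝒪)} {Smin Piv : Finset ℕ}
  {k r : ℕ} {pv : Fin k → ℕ} {qv : Fin r → ℕ}
  [NeZero (wilesLevel p .flat Smin (Smin ∪ Piv ∪ Finset.univ.image qv))]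
  {PQ : HeckePkg p 𝒪 ρbar .flat Smin (Smin ∪ Piv ∪ Finset.univ.image qv)}
  {α : Fin r → 𝒪} {V : Submodule 𝒪 (XIA p Smin pv qv 𝒪)} {h : ℕ}
  {a : PQ.T →ₐ[𝒪] Module.End 𝒪 V}

/-- `V` is stable under the diamond operators. -/
theorem diaIA_mem (hV : IsIAPart PQ α V) (a₁ : ∀ i : Fin k, (ZMod (pv i))ˣ)
    (a₂ : ∀ j : Fin r, (ZMod (qv j))ˣ) {x : XIA p Smin pv qv 𝒪} (hx : x ∈ V) :
    diaIA p Smin pv qv 𝒪 a₁ a₂ x ∈ V := by
  obtain ⟨e, -, he2, he3, -, -, heD, -⟩ := IsLocPart.exists_proj hV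
  have h1 := heD (gLift (wilesLevel p .flat Smin Smin) (Sum.elim pv qv) (pairU a₁ a₂)) x
  rw [he3 x hx] at h1
  unfold diaIA
  rw [← h1]
  exact he2 _

variable [NeZero (MIA p Smin pv qv)]

/-- The action of `T_Q` commutes with the diamond operators. -/
theorem a_diaIA (hV : IsIAPart PQ α V) (ha : IsIAAction PQ V h a)
    (hsig : ∀ q : ℕ, q.Prime →
      q ∣ wilesLevel p .flat Smin (Smin ∪ Piv ∪ Finset.univ.image qv) →
      q ∈ (↑(Smin ∪ Piv ∪ Finset.univ.image qv) : Set ℕ))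
    (hM : ∀ ℓ : ℕ, ℓ.Prime →
      ¬ ℓ ∣ wilesLevel p .flat Smin (Smin ∪ Piv ∪ Finset.univ.image qv) →
      ℓ ∉ (↑(Smin ∪ Piv ∪ Finset.univ.image qv) : Set ℕ) → ¬ ℓ ∣ MIA p Smin pv qv)
    (a₁ : ∀ i : Fin k, (ZMod (pv i))ˣ) (a₂ : ∀ j : Fin r, (ZMod (qv j))ˣ) (t : PQ.T) :
    ∀ v : V, ((a t ⟨diaIA p Smin pv qv 𝒪 a₁ a₂ v, diaIA_mem hV a₁ a₂ v.2⟩ : V) :
        XIA p Smin pv qv 𝒪) = diaIA p Smin pv qv 𝒪 a₁ a₂ ((a t v : V) : XIA p Smin pv qv 𝒪) := by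
  refine pkg_induction PQ hsig
    (fun t => ∀ v : V, ((a t ⟨diaIA p Smin pv qv 𝒪 a₁ a₂ v, diaIA_mem hV a₁ a₂ v.2⟩ : V) :
        XIA p Smin pv qv 𝒪) = diaIA p Smin pv qv 𝒪 a₁ a₂ ((a t v : V) : XIA p Smin pv qv 𝒪))
    ?_ ?_ ?_ ?_ t
  · intro c v
    rw [AlgHom.commutes, Module.algebraMap_end_apply, Module.algebraMap_end_apply,
      Submodule.coe_smul, Submodule.coe_smul, diaIA_smul]
  · intro x y hx hy v
    rw [map_add, LinearMap.add_apply, LinearMap.add_apply, Submodule.coe_add,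
      Submodule.coe_add, diaIA_add, hx v, hy v]
  · intro x y hx hy v
    rw [map_mul, Module.End.mul_apply, Module.End.mul_apply]
    have h1 : a y ⟨diaIA p Smin pv qv 𝒪 a₁ a₂ v, diaIA_mem hV a₁ a₂ v.2⟩ =
        ⟨diaIA p Smin pv qv 𝒪 a₁ a₂ ((a y v : V) : XIA p Smin pv qv 𝒪),
          diaIA_mem hV a₁ a₂ (a y v).2⟩ := Subtype.ext (hy v)
    rw [h1]
    exact hx (a y v)
  · intro ℓ hℓ hℓN hℓS v
    haveI : Fact ℓ.Prime := ⟨hℓ⟩
    have hℓM : ¬ ℓ ∣ MIA p Smin pv qv := hM ℓ hℓ hℓN hℓS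
    rw [ha ℓ hℓ hℓN hℓS, ha ℓ hℓ hℓN hℓS]
    unfold tOpTw tOp diaIA
    have h1 := diamondU_TK (A := 𝒪) (isMid_KIA p Smin pv qv) hℓM
      (gLift (wilesLevel p .flat Smin Smin) (Sum.elim pv qv) (pairU a₁ a₂))
      (v : XIA p Smin pv qv 𝒪)
    rw [show (⟨diamondU (isMid_KIA p Smin pv qv)
        (gLift (wilesLevel p .flat Smin Smin) (Sum.elim pv qv) (pairU a₁ a₂))
        (v : XIA p Smin pv qv 𝒪), diaIA_mem hV a₁ a₂ v.2⟩ : V).1 =
        diamondU (isMid_KIA p Smin pv qv)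
        (gLift (wilesLevel p .flat Smin Smin) (Sum.elim pv qv) (pairU a₁ a₂))
        (v : XIA p Smin pv qv 𝒪) from rfl]
    rw [h1]
    exact diamondU_comm' p _ _ _ _ _

/-- The inclusion `VMod V a → X_K(𝒪)`. -/
noncomputable def VMod.toX : VMod V a →+ XIA p Smin pv qv 𝒪 :=
  (V.subtype : V →+ XIA p Smin pv qv 𝒪)

theorem VMod.toX_injective : Function.Injective (VMod.toX (V := V) (a := a)) :=
  fun _ _ h => Subtype.ext h

theorem VMod.toX_mem (v : VMod V a) : VMod.toX v ∈ V := (VMod.val v).2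

theorem VMod.toX_algebraMap_smul (c : 𝒪) (v : VMod V a) :
    VMod.toX (algebraMap 𝒪 PQ.T c • v) = c • VMod.toX v := by
  rw [VMod.algebraMap_smul]
  rfl

theorem VMod.toX_smul (t : PQ.T) (v : VMod V a) :
    VMod.toX (t • v) = ((a t (VMod.val v) : V) : XIA p Smin pv qv 𝒪) := rfl

variable (hV : IsIAPart PQ α V) (ha : IsIAAction PQ V h a)
  (hsig : ∀ q : ℕ, q.Prime →
    q ∣ wilesLevel p .flat Smin (Smin ∪ Piv ∪ Finset.univ.image qv) →
    q ∈ (↑(Smin ∪ Piv ∪ Finset.univ.image qv) : Set ℕ))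
  (hM : ∀ ℓ : ℕ, ℓ.Prime →
    ¬ ℓ ∣ wilesLevel p .flat Smin (Smin ∪ Piv ∪ Finset.univ.image qv) →
    ℓ ∉ (↑(Smin ∪ Piv ∪ Finset.univ.image qv) : Set ℕ) → ¬ ℓ ∣ MIA p Smin pv qv)
  (hsurj : Function.Surjective (gRed (wilesLevel p .flat Smin Smin) (Sum.elim pv qv)))

/-- The diamond operator of `(a₁, a₂)` as a `T_Q`-linear endomorphism of `VMod V a`. -/
noncomputable def diaEnd (a₁ : ∀ i : Fin k, (ZMod (pv i))ˣ) (a₂ : ∀ j : Fin r, (ZMod (qv j))ˣ) :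
    Module.End PQ.T (VMod V a) where
  toFun v := VMod.mk ⟨diaIA p Smin pv qv 𝒪 a₁ a₂ (VMod.toX v), diaIA_mem hV a₁ a₂ (VMod.toX_mem v)⟩
  map_add' x y := by
    apply VMod.toX_injective
    exact diaIA_add p Smin pv qv 𝒪 a₁ a₂ _ _
  map_smul' t v := by
    apply VMod.toX_injective
    exact (a_diaIA hV ha hsig hM a₁ a₂ t (VMod.val v)).symm

theorem toX_diaEnd (a₁ : ∀ i : Fin k, (ZMod (pv i))ˣ) (a₂ : ∀ j : Fin r, (ZMod (qv j))ˣ)
    (v : VMod V a) :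
    VMod.toX (diaEnd hV ha hsig hM a₁ a₂ v) = diaIA p Smin pv qv 𝒪 a₁ a₂ (VMod.toX v) := rfl

/-- The diamond action of `∏ (ℤ/pv i)ˣ × ∏ (ℤ/qv j)ˣ` on `VMod V a`. -/
noncomputable def diaMod :
    (∀ i : Fin k, (ZMod (pv i))ˣ) × (∀ j : Fin r, (ZMod (qv j))ˣ) →*
      Module.End PQ.T (VMod V a) where
  toFun d := diaEnd hV ha hsig hM d.1 d.2
  map_one' := by
    refine LinearMap.ext fun v => ?_
    apply VMod.toX_injective
    rw [toX_diaEnd]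
    exact diaIA_one p Smin pv qv 𝒪 hsurj _
  map_mul' d d' := by
    refine LinearMap.ext fun v => ?_
    apply VMod.toX_injective
    rw [Module.End.mul_apply, toX_diaEnd, toX_diaEnd, toX_diaEnd]
    exact diaIA_mul p Smin pv qv 𝒪 hsurj _ _ _ _ _

theorem toX_diaMod (d : (∀ i : Fin k, (ZMod (pv i))ˣ) × (∀ j : Fin r, (ZMod (qv j))ˣ))
    (v : VMod V a) :
    VMod.toX (diaMod hV ha hsig hM hsurj d v) = diaIA p Smin pv qv 𝒪 d.1 d.2 (VMod.toX v) := rfl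

/-! ### The fields of `IABettiLevel` -/

theorem diaMod_pow₁ (a₁ : ∀ i : Fin k, (ZMod (pv i))ˣ) :
    diaMod hV ha hsig hM hsurj (fun i => a₁ i ^ p ^ padicValNat p (pv i - 1), 1) = 1 := by
  refine LinearMap.ext fun v => ?_
  apply VMod.toX_injective
  rw [toX_diaMod, Module.End.one_apply]
  have key := diaIA_pow p Smin pv qv 𝒪 hsurj a₁ 1 (VMod.toX v)
  have h1 : (fun j => (1 : ∀ j : Fin r, (ZMod (qv j))ˣ) j ^ p ^ padicValNat p (qv j - 1)) = 1 := by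
    funext j
    exact one_pow _
  rw [h1] at key
  exact key

theorem diaMod_pow₂ (a₂ : ∀ j : Fin r, (ZMod (qv j))ˣ) :
    diaMod hV ha hsig hM hsurj (1, fun j => a₂ j ^ p ^ padicValNat p (qv j - 1)) = 1 := by
  refine LinearMap.ext fun v => ?_
  apply VMod.toX_injective
  rw [toX_diaMod, Module.End.one_apply]
  have key := diaIA_pow p Smin pv qv 𝒪 hsurj 1 a₂ (VMod.toX v)
  have h1 : (fun i => (1 : ∀ i : Fin k, (ZMod (pv i))ˣ) i ^ p ^ padicValNat p (pv i - 1)) = 1 := by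
    funext i
    exact one_pow _
  rw [h1] at key
  exact key

theorem toX_sum_diaMod {d : ℕ} {E : Type} [Fintype E]
    (γ : E → (∀ i : Fin k, (ZMod (pv i))ˣ) × (∀ j : Fin r, (ZMod (qv j))ˣ))
    (b : Fin d → V) (c : Fin d → E → 𝒪) :
    VMod.toX (∑ i, ∑ e, algebraMap 𝒪 PQ.T (c i e) •
      diaMod hV ha hsig hM hsurj (γ e) (VMod.mk (b i) : VMod V a)) =
      ∑ i, ∑ e, c i e • diaIA p Smin pv qv 𝒪 (γ e).1 (γ e).2 (b i : XIA p Smin pv qv 𝒪) := by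
  rw [map_sum]
  refine Finset.sum_congr rfl fun i _ => ?_
  rw [map_sum]
  refine Finset.sum_congr rfl fun e _ => ?_
  rw [VMod.toX_algebraMap_smul, toX_diaMod]
  rfl

theorem free_of_freeAt {d : ℕ} (hfree : IAFreeAt V d)
    (g₁ : ∀ i : Fin k, (ZMod (pv i))ˣ) (g₂ : ∀ j : Fin r, (ZMod (qv j))ˣ)
    (hg₁ : ∀ i, orderOf (g₁ i) = pv i - 1) (hg₂ : ∀ j, orderOf (g₂ j) = qv j - 1) :
    ∃ b : Fin d → VMod V a, ∀ y : VMod V a,
      ∃! c : Fin d → (∀ i : Fin k, Fin (p ^ padicValNat p (pv i - 1))) ×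
          (∀ j : Fin r, Fin (p ^ padicValNat p (qv j - 1))) → 𝒪,
        y = ∑ i, ∑ e, algebraMap 𝒪 PQ.T (c i e) •
          diaMod hV ha hsig hM hsurj
            (fun i' => g₁ i' ^ (e.1 i' : ℕ), fun j => g₂ j ^ (e.2 j : ℕ)) (b i) := by
  obtain ⟨b, hb⟩ := hfree g₁ g₂ hg₁ hg₂
  refine ⟨fun i => VMod.mk (b i), fun y => ?_⟩
  obtain ⟨c, hc, hcu⟩ := hb (VMod.val y)
  refine ⟨c, ?_, ?_⟩
  · apply VMod.toX_injective
    rw [toX_sum_diaMod hV ha hsig hM hsurj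
      (fun e : (∀ i : Fin k, Fin (p ^ padicValNat p (pv i - 1))) ×
          (∀ j : Fin r, Fin (p ^ padicValNat p (qv j - 1))) =>
        ((fun i' => g₁ i' ^ (e.1 i' : ℕ)), (fun j => g₂ j ^ (e.2 j : ℕ)))) b c]
    exact hc
  · intro c' hc'
    apply hcu
    have h2 := congrArg VMod.toX hc'
    rw [toX_sum_diaMod hV ha hsig hM hsurj
      (fun e : (∀ i : Fin k, Fin (p ^ padicValNat p (pv i - 1))) ×
          (∀ j : Fin r, Fin (p ^ padicValNat p (qv j - 1))) =>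
        ((fun i' => g₁ i' ^ (e.1 i' : ℕ)), (fun j => g₂ j ^ (e.2 j : ℕ)))) b c'] at h2
    exact h2

include hV in
theorem chiRelIA_le (χ : (∀ i : Fin k, (ZMod (pv i))ˣ) →* 𝒪) :
    chiRelIA p Smin pv qv χ V ≤ V := by
  refine Submodule.span_le.mpr ?_
  rintro w ⟨a₁, y, hy, rfl⟩
  exact V.sub_mem (diaIA_mem hV a₁ 1 hy) (V.smul_mem _ hy)

theorem mem_span_of_mem_chiRelIA (χ : (∀ i : Fin k, (ZMod (pv i))ˣ) →* 𝒪)
    {x : XIA p Smin pv qv 𝒪} (hx : x ∈ chiRelIA p Smin pv qv χ V) :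
    ∀ v : VMod V a, VMod.toX v = x → v ∈ Submodule.span PQ.T
      {w : VMod V a | ∃ (a₁ : ∀ i : Fin k, (ZMod (pv i))ˣ) (y : VMod V a),
        w = diaMod hV ha hsig hM hsurj (a₁, 1) y - algebraMap 𝒪 PQ.T (χ a₁) • y} := by
  unfold chiRelIA at hx
  induction hx using Submodule.span_induction with
  | mem w hw =>
    obtain ⟨a₁, y, hy, rfl⟩ := hw
    intro v hv
    refine Submodule.subset_span ⟨a₁, VMod.mk ⟨y, hy⟩, ?_⟩
    apply VMod.toX_injective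
    rw [hv, map_sub, VMod.toX_algebraMap_smul, toX_diaMod]
    rfl
  | zero =>
    intro v hv
    have : v = 0 := VMod.toX_injective (by rw [hv, map_zero])
    rw [this]
    exact Submodule.zero_mem _
  | add x y hx hy ihx ihy =>
    intro v hv
    have hxV : x ∈ V := chiRelIA_le hV χ hx
    have hyV : y ∈ V := chiRelIA_le hV χ hy
    have : v = (VMod.mk ⟨x, hxV⟩ : VMod V a) + VMod.mk ⟨y, hyV⟩ :=
      VMod.toX_injective (by rw [hv, map_add]; rfl)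
    rw [this]
    exact Submodule.add_mem _ (ihx _ rfl) (ihy _ rfl)
  | smul c x hx ihx =>
    intro v hv
    have hxV : x ∈ V := chiRelIA_le hV χ hx
    have : v = algebraMap 𝒪 PQ.T c • (VMod.mk ⟨x, hxV⟩ : VMod V a) :=
      VMod.toX_injective (by rw [hv, VMod.toX_algebraMap_smul]; rfl)
    rw [this]
    exact Submodule.smul_mem _ _ (ihx _ rfl)

/-- **The abstract Betti module of the localisation `V`.** -/
noncomputable def bettiOf (d : ℕ) (hfree : IAFreeAt V d) (hnu : IANuAt PQ V a)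
    (hst : IAStAt PQ V a) : IABettiLevel Piv pv qv PQ d where
  V := VMod V a
  dia := diaMod hV ha hsig hM hsurj
  dia_pow₁ := diaMod_pow₁ hV ha hsig hM hsurj
  dia_pow₂ := diaMod_pow₂ hV ha hsig hM hsurj
  free := free_of_freeAt hV ha hsig hM hsurj hfree
  nu := fun χ hχ t ht v =>
    mem_span_of_mem_chiRelIA hV ha hsig hM hsurj χ (hnu χ hχ t ht (VMod.val v)) (t • v) rfl
  st := fun q hq P hP φ hφ v => by
    have h1 := mem_span_of_mem_chiRelIA hV ha hsig hM hsurj 1 (hst q hq P hP φ hφ (VMod.val v))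
      ((PQ.H.ρ.trace φ ^ 2 - ((1 + q : ℕ) : PQ.T) ^ 2) • v) rfl
    have h2 : {w : VMod V a | ∃ (a₁ : ∀ i : Fin k, (ZMod (pv i))ˣ) (y : VMod V a),
        w = diaMod hV ha hsig hM hsurj (a₁, 1) y -
          algebraMap 𝒪 PQ.T ((1 : (∀ i : Fin k, (ZMod (pv i))ˣ) →* 𝒪) a₁) • y} =
        {w : VMod V a | ∃ (a₁ : ∀ i : Fin k, (ZMod (pv i))ˣ) (y : VMod V a),
          w = diaMod hV ha hsig hM hsurj (a₁, 1) y - y} := by
      ext w
      constructor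
      · rintro ⟨a₁, y, rfl⟩
        exact ⟨a₁, y, by rw [MonoidHom.one_apply, map_one, one_smul]⟩
      · rintro ⟨a₁, y, rfl⟩
        exact ⟨a₁, y, by rw [MonoidHom.one_apply, map_one, one_smul]⟩
    rw [h2] at h1
    exact h1

theorem bettiOf_cmp (d : ℕ) (hfree : IAFreeAt V d) (hnu : IANuAt PQ V a)
    (hst : IAStAt PQ V a) (hcmp : IACmpAt PQ V a) :
    (bettiOf hV ha hsig hM hsurj d hfree hnu hst).Cmp := by
  intro j P hP φ hφ σ hσ u hu hcyc a₀ w hw y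
  change VMod V a at y
  have h1 := hcmp j P hP φ hφ σ hσ u hu hcyc a₀ w hw (VMod.val y)
  constructor
  · rintro ⟨y', hy'⟩
    change VMod V a at y'
    obtain ⟨z, hz⟩ := h1.mp ⟨VMod.val y', hy'⟩
    refine ⟨(VMod.mk z : VMod V a), ?_⟩
    apply VMod.toX_injective
    exact hz
  · rintro ⟨y', hy'⟩
    change VMod V a at y'
    obtain ⟨z, hz⟩ := h1.mpr ⟨VMod.val y', congrArg VMod.toX hy'⟩
    exact ⟨(VMod.mk z : VMod V a), hz⟩

end Build

end Fermat.Agent.S38.IA.Hecke
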