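import Fermat.Agent.S38.H473.PtSpec
import Fermat.Agent.S38.H953.NuPtSpec

/-!
# Row HARD, cell HECKE, leaves IA-NU / IA-ST: the two point-level shapes  (helper3)

Two point-level forms of IA-NU and IA-ST are in use:

* `H473.IANuPtStatement`, `H473.IAStPtStatement` (helper473, OFFICIAL: consumed by the glue
  `H473.iaNu_of_pt`, `H473.iaSt_of_pt`): the points are the local `S31.PadicPoint p PQ.T`;
* `H953.IANuPtStatement953`, `H953.IAStPtStatement953` (helper953): the points are the local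
  `𝒪`-algebra homomorphisms `PQ.T →ₐ[𝒪] 𝒪'`, `𝒪'` a complete discrete valuation ring of
  characteristic `0` with finite residue field of residue characteristic `p`.

The second form implies the first one (a `p`-adic point makes its coefficient ring an
`𝒪`-algebra).  So the owners of the dictionary may prove EITHER form.
-/

set_option autoImplicit false

open IsLocalRing

namespace Fermat.Agent.S38.IA.Hecke

open Fermat.Agent.S59.Arch Fermat.Agent.S59.TW.H959 Fermat.Agent.S59.TW
open Fermat.Agent.S59.TW.Aut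

/-- IA-NU, point level: the form of helper953 implies the form of helper473. -/
theorem iaNuPt_of_953 (h953 : Fermat.Agent.S38.H953.IANuPtStatement953) :
    Fermat.Agent.S38.H473.IANuPtStatement := by
  intro p hpF hp5 𝒪 _ _ _ _ _ _ ρbar Smin h hflat Piv hPiv k pv hpv hpvPiv n r qv hq hNQ PQ α hα
    V hh a hV hhalf₁ hhalf₂ ha χ hχ P hP hthru q hqP
  letI : Algebra 𝒪 P.O := (P.χ.comp (algebraMap 𝒪 PQ.T)).toAlgebra
  let x : PQ.T →ₐ[𝒪] P.O := { P.χ with commutes' := fun _ => rfl }
  have hxc : (x : PQ.T →+* P.O) = P.χ := rfl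
  have hx : IsLocalHom (x : PQ.T →+* P.O) := hxc ▸ hP
  exact h953 p hp5 𝒪 ρbar Smin h hflat Piv hPiv k pv hpv hpvPiv n r qv hq PQ α hα V hh a hV
    hhalf₁ hhalf₂ ha χ hχ P.O x hx P.hp hthru q hqP

/-- IA-ST, point level: the form of helper953 implies the form of helper473. -/
theorem iaStPt_of_953 (h953 : Fermat.Agent.S38.H953.IAStPtStatement953) :
    Fermat.Agent.S38.H473.IAStPtStatement := by
  intro p hpF hp5 𝒪 _ _ _ _ _ _ ρbar Smin h hflat Piv hPiv hmin k pv hpv hpvPiv n r qv hq hNQ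
    PQ α hα V hh a hV hhalf₁ hhalf₂ ha P hP hthru q hqP Pl hPl φ hφ
  letI : Algebra 𝒪 P.O := (P.χ.comp (algebraMap 𝒪 PQ.T)).toAlgebra
  let x : PQ.T →ₐ[𝒪] P.O := { P.χ with commutes' := fun _ => rfl }
  have hxc : (x : PQ.T →+* P.O) = P.χ := rfl
  have hx : IsLocalHom (x : PQ.T →+* P.O) := hxc ▸ hP
  exact h953 p hp5 𝒪 ρbar Smin h hflat Piv hPiv hmin k pv hpv hpvPiv n r qv hq PQ α hα V hh a
    hV hhalf₁ hhalf₂ ha P.O x hx P.hp hthru q hqP Pl hPl φ hφ

end Fermat.Agent.S38.IA.Hecke
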