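import Fermat.Agent.S38.IA.Hecke.GlueB3
import Fermat.Agent.S38.IA.Hecke.Asm5
import Fermat.Agent.S38.H354.GlueA
import Fermat.Agent.S38.H483.IARank
import Fermat.Agent.S38.H483.IANontriv
import Fermat.Agent.S38.H916.IAFree
import Fermat.Agent.S38.H781.IAMod
import Fermat.Agent.S38.H473.PtGlue
import Fermat.Agent.S38.IA.Hecke.PtAdapter
import Fermat.Agent.S59.TW.Aut.H511.Idem
import Fermat.Agent.S59.TW.H427.InertiaExists
import Fermat.Agent.S59.TW.H123.InertiaOrder
import Fermat.Agent.S59.TW.H59.CycloSurj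
import Fermat.Agent.S59.TW.H95.Alg

/-!
# Row HARD, cell HECKE: the wiring with all closed leaves plugged in  (helper3)

What is OPEN in the cell HECKE is exactly the list of hypotheses of `iaHecke5_of_open`:
`PkgFlatStatement` (⇐ `TW.PkgStatement`), `IACtrlStatement`,
`IACmpStatement`, `IANuStatement`, `IAStStatement` (`Hecke/Spec3.lean`, v2).

Plugged in: IDEM (`S59.TW.Aut.H511.idem`, main), IA-NONTRIV, IA-RANK (helper483), IA-FREE
(helper916), IA-MOD (helper781), the kill glue of IA-NU / IA-ST (helper473: `iaHecke5_of_pt`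
takes the POINT-LEVEL forms `H473.IANuPtStatement`, `H473.IAStPtStatement`), glue A
(helper354, `iaAut5_of_betti`), glue B (`iaBetti_of_leaves`), layer 2 (`iaHecke5_of_leaves`) with
INX, INO, CYC, ALG (main).
-/

set_option autoImplicit false

namespace Fermat.Agent.S38.IA.Hecke

open Fermat.Agent.S59.TW

/-- The cell HECKE of row HARD from the leaves of layer 3 (algebra, glue and layer 2 plugged
in). -/
theorem iaHecke5_of_layer3 (hPkg : PkgFlatStatement) (hMod : IAModStatement)
    (hFree : IAFreeStatement) (hCtrl : IACtrlStatement) (hCmp : IACmpStatement)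
    (hNu : IANuStatement) (hSt : IAStStatement) : IAHecke5Statement :=
  iaHecke5_of_leaves hPkg
    (Fermat.Agent.S38.H354.iaAut5_of_betti
      (iaBetti_of_leaves Fermat.Agent.S59.TW.Aut.H511.idem Fermat.Agent.S38.H483.iaNontriv483
        hMod hFree hCtrl Fermat.Agent.S38.H483.iaRank483 hCmp hNu hSt))
    Fermat.Agent.S59.TW.H427.inertiaExists Fermat.Agent.S59.TW.H123.inertiaOrder
    Fermat.Agent.S59.TW.H59.cycloSurj Fermat.Agent.S59.TW.H95.alg

/-- **The cell HECKE of row HARD from its open leaves.** -/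
theorem iaHecke5_of_open (hPkg : PkgFlatStatement)
    (hCtrl : IACtrlStatement) (hCmp : IACmpStatement)
    (hNu : IANuStatement) (hSt : IAStStatement) : IAHecke5Statement :=
  iaHecke5_of_layer3 hPkg Fermat.Agent.S38.H781.iaMod Fermat.Agent.S38.H916.iaFree_h916
    hCtrl hCmp hNu hSt

/-- **The cell HECKE of row HARD from IA-CTRL, IA-CMP and the POINT-LEVEL forms of IA-NU and
IA-ST** (helper473's `PtSpec`; the kill glue `H473.iaNu_of_pt`, `H473.iaSt_of_pt` is plugged
in). -/
theorem iaHecke5_of_pt (hPkg : PkgFlatStatement)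
    (hCtrl : IACtrlStatement) (hCmp : IACmpStatement)
    (hNuPt : Fermat.Agent.S38.H473.IANuPtStatement)
    (hStPt : Fermat.Agent.S38.H473.IAStPtStatement) : IAHecke5Statement :=
  iaHecke5_of_open hPkg hCtrl hCmp
    (Fermat.Agent.S38.H473.iaNu_of_pt Fermat.Agent.S38.H916.iaFree_h916 hNuPt)
    (Fermat.Agent.S38.H473.iaSt_of_pt Fermat.Agent.S38.H916.iaFree_h916 hStPt)

/-- The same with the point-level forms of helper953 (`NuPtSpec`). -/
theorem iaHecke5_of_pt953 (hPkg : PkgFlatStatement)
    (hCtrl : IACtrlStatement) (hCmp : IACmpStatement)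
    (hNuPt : Fermat.Agent.S38.H953.IANuPtStatement953)
    (hStPt : Fermat.Agent.S38.H953.IAStPtStatement953) : IAHecke5Statement :=
  iaHecke5_of_pt hPkg hCtrl hCmp (iaNuPt_of_953 hNuPt) (iaStPt_of_953 hStPt)

end Fermat.Agent.S38.IA.Hecke
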